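import Mathlib
import Fermat.Prelude.Def_ModularForm_HeckeOperator
import Fermat.Prelude.Def_FLTPrelim_Modularity
import Fermat.Prelude.Thm_ModularFormClass_qCoeff_heckeU
import Fermat.Prelude.Thm_ModularForm_periodic_heckeU_comp_ofComplex
import Fermat.Prelude.Thm_ModularForm_mdifferentiable_heckeU
import Fermat.Prelude.Thm_ModularForm_isBoundedAtImInfty_heckeU
import Fermat.Prelude.Thm_CongruenceSubgroup_one_mem_strictPeriods_Gamma0
import Fermat.Agent.S23.Defs
import Fermat.Agent.S16.MF.Exp

/-!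
# S16 / B1 / ExpU (ALT copy for an independent second prover; leaf; statements FROZEN by helper7): the `q`-expansion of `U_p F`, and `U_p F → 0`

`F ∈ M_k(Γ₀(p))`, `U F := ModularForm.heckeU k p ⇑F = Σ_{j<p} F ∣[k] [1, j; 0, p]` (a function `ℍ → ℂ`).
`HasExp h G B` (file `Fermat/Agent/S16/MF/Exp.lean`, read it) means
`∀ z, HasSum (fun m => coeff m B * 𝕢 h z ^ m) (G z)`.

* `hasExp_heckeU`: `U F` is `1`-periodic, holomorphic and bounded at `i∞`
  (Prelude: `ModularForm.periodic_heckeU_comp_ofComplex`, `ModularForm.mdifferentiable_heckeU`,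
  `ModularForm.isBoundedAtImInfty_heckeU`, applied to the corresponding facts for `F`:
  `SlashInvariantFormClass.periodic_comp_ofComplex F hΓ` with
  `hΓ := CongruenceSubgroup.one_mem_strictPeriods_Gamma0 p`, `ModularFormClass.holo F`,
  `ModularFormClass.bdd_at_infty F`), so Mathlib's `UpperHalfPlane.hasSum_qExpansion one_pos …`
  gives `HasExp 1 (U F) (qExpansion 1 (U F))` (mind `smul_eq_mul` and `Nat.cast_one`); the
  coefficients are `ModularFormClass.qCoeff_heckeU F hΓ hp0 n :
  ModularFormClass.qCoeff (heckeU k p F) n = coeffHeckeU p (ModularFormClass.qCoeff F) n`,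
  `ModularForm.coeffHeckeU_apply : coeffHeckeU p a n = a (n * p)`, and
  `ModularFormClass.qCoeff f n = (qExpansion 1 f).coeff n` by `rfl`.
* `isZeroAtImInfty_heckeU`: if `a₀(F) = 0` then `F` is zero at `i∞` (Mathlib
  `NumberTheory/ModularForms/CuspFormSubmodule.lean`, around line 99, and `qExpansion_coeff_zero`),
  each `F ∣[k] heckeMatrix p j` is zero at `i∞` (`UpperHalfPlane.IsZeroAtImInfty.slash` in
  `Mathlib/NumberTheory/ModularForms/BoundedAtCusp.lean`: needs the lower-left entry `= 0`), and a finite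
  sum of functions that are zero at `i∞` is zero at `i∞`.
The instance `NeZero p` is `⟨hp.ne_zero⟩` if needed.  Auxiliary lemmas: prefix `B1.ExpUAlt.aux_`.

Proof actually used here: `U F` is "nice" (periodic, holomorphic, bounded at `i∞`), its `q`-expansion
is `Σ a_{pn} q^n` by the Prelude coefficient formula, and a nice function whose `q`-expansion has
constant term `0` tends to `0` at `i∞` (continuity of the cusp function at `0`).
-/

set_option autoImplicit false

open UpperHalfPlane ModularForm CongruenceSubgroup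
open scoped MatrixGroups ModularForm

namespace Fermat.Agent.S16

open Fermat.Agent.S23 (Gam psi)

/-- `U_p F` is periodic, holomorphic and bounded at `i∞`. -/
theorem B1.ExpUAlt.aux_isNice_heckeU {p : ℕ} [NeZero p] {k : ℤ} (F : ModularForm (Gam p) k) :
    Fermat.Agent.S23.IsNice (heckeU k p ⇑F) := by
  obtain ⟨h1, h2, h3⟩ := Fermat.Agent.S23.isNice_modularForm F
  refine ⟨?_, ModularForm.mdifferentiable_heckeU h2 k p,
    ModularForm.isBoundedAtImInfty_heckeU h3 k p⟩
  have h1' : Function.Periodic (⇑F ∘ ofComplex) 1 := by simpa using h1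
  simpa using ModularForm.periodic_heckeU_comp_ofComplex h1' k p

/-- The `q`-expansion of `U_p F` is `Σ a_{pn} q^n`. -/
theorem B1.ExpUAlt.aux_qExpansion_heckeU {p : ℕ} (hp0 : p ≠ 0) {k : ℤ}
    (F : ModularForm (Gam p) k) :
    qExpansion 1 (heckeU k p ⇑F) = PowerSeries.mk fun n => (qExpansion 1 F).coeff (p * n) := by
  ext n
  rw [PowerSeries.coeff_mk]
  have h := ModularFormClass.qCoeff_heckeU F
    (CongruenceSubgroup.one_mem_strictPeriods_Gamma0 p) hp0 n
  rw [ModularForm.coeffHeckeU_apply] at h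
  rw [mul_comm]
  exact h

/-- A periodic holomorphic function bounded at `i∞` whose `q`-expansion has constant term `0`
tends to `0` at `i∞`. -/
theorem B1.ExpUAlt.aux_isZeroAtImInfty_of_isNice {G : ℍ → ℂ}
    (hG : Fermat.Agent.S23.IsNice G) (h0 : (qExpansion 1 G).coeff 0 = 0) :
    IsZeroAtImInfty G := by
  have hanal : AnalyticAt ℂ (cuspFunction 1 G) 0 := hG.analyticAt
  have hper := hG.1
  have hval : cuspFunction 1 G 0 = 0 := by
    rw [UpperHalfPlane.cuspFunction_apply_zero one_pos hanal hper,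
      ← UpperHalfPlane.qExpansion_coeff_zero one_pos hanal hper]
    exact h0
  have ht : Filter.Tendsto (fun τ : ℍ => cuspFunction 1 G (Function.Periodic.qParam 1 τ))
      atImInfty (nhds 0) := by
    have h := hanal.continuousAt.tendsto.comp
      (UpperHalfPlane.qParam_tendsto_atImInfty (h := 1) one_pos)
    rw [hval] at h
    exact h
  exact ht.congr (fun τ => UpperHalfPlane.eq_cuspFunction τ one_ne_zero hper)

theorem B1.ExpUAlt.hasExp_heckeU {p : ℕ} (hp : p.Prime) {k : ℤ} (F : ModularForm (Gam p) k) :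
    HasExp 1 (heckeU k p ⇑F) (PowerSeries.mk fun n => (qExpansion 1 F).coeff (p * n)) := by
  have : NeZero p := ⟨hp.ne_zero⟩
  rw [← B1.ExpUAlt.aux_qExpansion_heckeU hp.ne_zero F]
  exact hasExp_of_isNice (B1.ExpUAlt.aux_isNice_heckeU F)

theorem B1.ExpUAlt.isZeroAtImInfty_of_coeff_zero {p : ℕ} (hp : p.Prime) {k : ℤ}
    (F : ModularForm (Gam p) k) (h0 : (qExpansion 1 F).coeff 0 = 0) : IsZeroAtImInfty ⇑F := by
  have : NeZero p := ⟨hp.ne_zero⟩
  exact B1.ExpUAlt.aux_isZeroAtImInfty_of_isNice (Fermat.Agent.S23.isNice_modularForm F) h0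

theorem B1.ExpUAlt.isZeroAtImInfty_heckeU {p : ℕ} (hp : p.Prime) {k : ℤ}
    (F : ModularForm (Gam p) k) (h0 : (qExpansion 1 F).coeff 0 = 0) :
    IsZeroAtImInfty (heckeU k p ⇑F) := by
  have : NeZero p := ⟨hp.ne_zero⟩
  refine B1.ExpUAlt.aux_isZeroAtImInfty_of_isNice (B1.ExpUAlt.aux_isNice_heckeU F) ?_
  rw [B1.ExpUAlt.aux_qExpansion_heckeU hp.ne_zero F, PowerSeries.coeff_mk, mul_zero]
  exact h0

end Fermat.Agent.S16
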