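import Mathlib
import Fermat.Prelude.Def_ModularForm_HeckeOperator
import Fermat.Prelude.Def_FLTPrelim_Modularity
import Fermat.Prelude.Thm_ModularFormClass_qCoeff_heckeU
import Fermat.Prelude.Thm_ModularForm_periodic_heckeU_comp_ofComplex
import Fermat.Prelude.Thm_ModularForm_mdifferentiable_heckeU
import Fermat.Prelude.Thm_ModularForm_isBoundedAtImInfty_heckeU
import Fermat.Prelude.Thm_CongruenceSubgroup_one_mem_strictPeriods_Gamma0
import Fermat.Agent.S23.Defs
import Fermat.Agent.S16.MF.Exp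
import Fermat.Agent.S16.B1.ExpUAlt

/-!
# S16 / B1 / ExpU (leaf; statements FROZEN by helper7): the `q`-expansion of `U_p F`, and `U_p F → 0`

`F ∈ M_k(Γ₀(p))`, `U F := ModularForm.heckeU k p ⇑F = Σ_{j<p} F ∣[k] [1, j; 0, p]` (a function `ℍ → ℂ`).
`HasExp h G B` (file `Fermat/Agent/S16/MF/Exp.lean`, read it) means
`∀ z, HasSum (fun m => coeff m B * 𝕢 h z ^ m) (G z)`.

* `hasExp_heckeU`: `U F` is `1`-periodic, holomorphic and bounded at `i∞`
  (Prelude: `ModularForm.periodic_heckeU_comp_ofComplex`, `ModularForm.mdifferentiable_heckeU`,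
  `ModularForm.isBoundedAtImInfty_heckeU`, applied to the corresponding facts for `F`:
  `SlashInvariantFormClass.periodic_comp_ofComplex F hΓ` with
  `hΓ := CongruenceSubgroup.one_mem_strictPeriods_Gamma0 p`, `ModularFormClass.holo F`,
  `ModularFormClass.bdd_at_infty F`), so Mathlib's `UpperHalfPlane.hasSum_qExpansion one_pos …`
  gives `HasExp 1 (U F) (qExpansion 1 (U F))` (mind `smul_eq_mul` and `Nat.cast_one`); the
  coefficients are `ModularFormClass.qCoeff_heckeU F hΓ hp0 n :
  ModularFormClass.qCoeff (heckeU k p F) n = coeffHeckeU p (ModularFormClass.qCoeff F) n`,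
  `ModularForm.coeffHeckeU_apply : coeffHeckeU p a n = a (n * p)`, and
  `ModularFormClass.qCoeff f n = (qExpansion 1 f).coeff n` by `rfl`.
* `isZeroAtImInfty_heckeU`: if `a₀(F) = 0` then `F` is zero at `i∞` (Mathlib
  `NumberTheory/ModularForms/CuspFormSubmodule.lean`, around line 99, and `qExpansion_coeff_zero`),
  each `F ∣[k] heckeMatrix p j` is zero at `i∞` (`UpperHalfPlane.IsZeroAtImInfty.slash` in
  `Mathlib/NumberTheory/ModularForms/BoundedAtCusp.lean`: needs the lower-left entry `= 0`), and a finite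
  sum of functions that are zero at `i∞` is zero at `i∞`.
The instance `NeZero p` is `⟨hp.ne_zero⟩` if needed.  Auxiliary lemmas: prefix `B1.ExpU.aux_`.
-/

set_option autoImplicit false

open UpperHalfPlane ModularForm CongruenceSubgroup
open scoped MatrixGroups ModularForm

namespace Fermat.Agent.S16

open Fermat.Agent.S23 (Gam psi)

theorem B1.ExpU.hasExp_heckeU {p : ℕ} (hp : p.Prime) {k : ℤ} (F : ModularForm (Gam p) k) :
    HasExp 1 (heckeU k p ⇑F) (PowerSeries.mk fun n => (qExpansion 1 F).coeff (p * n)) :=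
  B1.ExpUAlt.hasExp_heckeU hp F

theorem B1.ExpU.isZeroAtImInfty_of_coeff_zero {p : ℕ} (hp : p.Prime) {k : ℤ}
    (F : ModularForm (Gam p) k) (h0 : (qExpansion 1 F).coeff 0 = 0) : IsZeroAtImInfty ⇑F :=
  B1.ExpUAlt.isZeroAtImInfty_of_coeff_zero hp F h0

theorem B1.ExpU.isZeroAtImInfty_heckeU {p : ℕ} (hp : p.Prime) {k : ℤ}
    (F : ModularForm (Gam p) k) (h0 : (qExpansion 1 F).coeff 0 = 0) :
    IsZeroAtImInfty (heckeU k p ⇑F) :=
  B1.ExpUAlt.isZeroAtImInfty_heckeU hp F h0

end Fermat.Agent.S16
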