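import Mathlib
import Fermat.Prelude.Def_ModularForm_HeckeOperator
import Fermat.Agent.S23.Defs

/-!
# S16 / B1 / FrickeInv (leaf; statement FROZEN by helper7): `F ∣ S ∣ diag(p,1)` is `Γ₀(p)`-invariant

`W := S · diag(p, 1) = [0, -1; p, 0]` as an element of `GL (Fin 2) ℝ`:
`(ModularGroup.S : GL (Fin 2) ℝ) * ModularForm.heckeDiagMatrix p`; the coercion of `SL(2,ℤ)` is the
monoid hom `Matrix.SpecialLinearGroup.mapGL ℝ`, and
`ModularForm.val_heckeDiagMatrix : ↑(heckeDiagMatrix p) = !![(p:ℝ), 0; 0, 1]` for `p ≠ 0`.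
`(F ∣[k] S) ∣[k] heckeDiagMatrix p = F ∣[k] W` (`SlashAction.slash_mul`, `ModularForm.SL_slash`).

For `γ = [a, b; c, d] ∈ Γ₀(p)` (`CongruenceSubgroup.Gamma0_mem`; so `c = p c'`,
`ZMod.intCast_zmod_eq_zero_iff_dvd`) put `γ' := [d, -c'; -p b, a]` (determinant `a d - b c = 1`;
build it as `⟨!![d, -c'; -p*b, a], by ...⟩ : SL(2,ℤ)`), `γ' ∈ Γ₀(p)`.  Then `W * ↑γ = ↑γ' * W` in
`GL (Fin 2) ℝ` (entrywise: `ext i j; fin_cases i <;> fin_cases j <;> simp [...]`, the entries are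
`[-c, -d; p a, p b]`), so
`(F ∣ W) ∣ γ = F ∣ (W γ) = F ∣ (γ' W) = (F ∣ γ') ∣ W = F ∣ W`
(`SlashInvariantFormClass.slash_action_eq F _ ⟨γ', hγ', rfl⟩`; `Gam p = Subgroup.map (mapGL ℝ) (Gamma0 p)`).
Auxiliary lemmas: prefix `B1.FrickeInv.aux_`.
-/

set_option autoImplicit false

open UpperHalfPlane ModularForm CongruenceSubgroup
open scoped MatrixGroups ModularForm

namespace Fermat.Agent.S16

open Fermat.Agent.S23 (Gam psi)

/-- The matrix identity `W * γ = γ' * W` for `W = S * diag(p, 1)`, `γ = [a, b; p c', d]`,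
`γ' = [d, -c'; -p b, a]`. -/
theorem B1.FrickeInv.aux_comm {p : ℕ} (hp : p ≠ 0) (g g' : SL(2, ℤ)) (c' : ℤ)
    (hc : g 1 0 = (p : ℤ) * c')
    (h00 : g' 0 0 = g 1 1) (h01 : g' 0 1 = -c') (h10 : g' 1 0 = -(p : ℤ) * g 0 1)
    (h11 : g' 1 1 = g 0 0) :
    (Matrix.SpecialLinearGroup.mapGL ℝ ModularGroup.S) * heckeDiagMatrix p *
        (Matrix.SpecialLinearGroup.mapGL ℝ g)
      = (Matrix.SpecialLinearGroup.mapGL ℝ g') *
        ((Matrix.SpecialLinearGroup.mapGL ℝ ModularGroup.S) * heckeDiagMatrix p) := by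
  apply Units.ext
  rw [Units.val_mul, Units.val_mul, Units.val_mul, Units.val_mul]
  rw [show ((heckeDiagMatrix p : GL (Fin 2) ℝ) : Matrix (Fin 2) (Fin 2) ℝ)
    = !![(p : ℝ), 0; 0, 1] from val_heckeDiagMatrix hp]
  ext i j
  fin_cases i <;> fin_cases j <;>
    simp [Matrix.mul_apply, Fin.sum_univ_two, Matrix.SpecialLinearGroup.mapGL_coe_matrix,
      ModularGroup.coe_S, hc, h00, h01, h10, h11] <;> ring

theorem B1.FrickeInv.slash_invariant {p : ℕ} (hp : p.Prime) {k : ℤ} (F : ModularForm (Gam p) k)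
    (γ : GL (Fin 2) ℝ) (hγ : γ ∈ Gam p) :
    (((⇑F) ∣[k] ModularGroup.S) ∣[k] heckeDiagMatrix p) ∣[k] γ =
      ((⇑F) ∣[k] ModularGroup.S) ∣[k] heckeDiagMatrix p := by
  obtain ⟨g, hg, rfl⟩ := hγ
  have hg0 : ((g 1 0 : ℤ) : ZMod p) = 0 := Gamma0_mem.mp hg
  obtain ⟨c', hc'⟩ : (p : ℤ) ∣ g 1 0 := (ZMod.intCast_zmod_eq_zero_iff_dvd _ _).mp hg0
  have hdet : g 1 1 * g 0 0 - -c' * (-(p : ℤ) * g 0 1) = 1 := by
    have h := g.det_coe
    rw [Matrix.det_fin_two, hc'] at h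
    linear_combination h
  let g' : SL(2, ℤ) := ⟨!![g 1 1, -c'; -(p : ℤ) * g 0 1, g 0 0], by
    rw [Matrix.det_fin_two_of]
    exact hdet⟩
  have hg' : g' ∈ Gamma0 p := by
    rw [Gamma0_mem]
    show (((-(p : ℤ) * g 0 1 : ℤ)) : ZMod p) = 0
    simp
  have hW := B1.FrickeInv.aux_comm hp.ne_zero g g' c' hc' rfl rfl rfl rfl
  have hF : (⇑F) ∣[k] (Matrix.SpecialLinearGroup.mapGL ℝ g') = ⇑F :=
    SlashInvariantFormClass.slash_action_eq F _ ⟨g', hg', rfl⟩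
  have e1 : (⇑F) ∣[k] ModularGroup.S
      = (⇑F) ∣[k] (Matrix.SpecialLinearGroup.mapGL ℝ ModularGroup.S) := rfl
  rw [e1]
  calc (((⇑F) ∣[k] (Matrix.SpecialLinearGroup.mapGL ℝ ModularGroup.S)) ∣[k] heckeDiagMatrix p)
          ∣[k] (Matrix.SpecialLinearGroup.mapGL ℝ g)
      = (⇑F) ∣[k] ((Matrix.SpecialLinearGroup.mapGL ℝ ModularGroup.S) * heckeDiagMatrix p *
          (Matrix.SpecialLinearGroup.mapGL ℝ g)) := by
        rw [SlashAction.slash_mul, SlashAction.slash_mul]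
    _ = (⇑F) ∣[k] ((Matrix.SpecialLinearGroup.mapGL ℝ g') *
          ((Matrix.SpecialLinearGroup.mapGL ℝ ModularGroup.S) * heckeDiagMatrix p)) := by
        rw [hW]
    _ = ((⇑F) ∣[k] (Matrix.SpecialLinearGroup.mapGL ℝ ModularGroup.S)) ∣[k] heckeDiagMatrix p := by
        rw [SlashAction.slash_mul, hF, SlashAction.slash_mul]

end Fermat.Agent.S16
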