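import Mathlib
import Fermat.Agent.S16.B1.FrickeInv
import Fermat.Agent.S16.B1.FrickeBdd

/-!
# S16 / B1 / Fricke (assembly, helper7): the Fricke transform stays in `M_k(Γ₀(p))`
-/

set_option autoImplicit false

open UpperHalfPlane ModularForm CongruenceSubgroup
open scoped MatrixGroups ModularForm

namespace Fermat.Agent.S16

open Fermat.Agent.S23 (Gam psi)

theorem B1.Fricke.exists_fricke {p : ℕ} (hp : p.Prime) {k : ℤ} (F : ModularForm (Gam p) k) :
    ∃ g : ModularForm (Gam p) k,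
      (⇑g : ℍ → ℂ) = ((⇑F) ∣[k] ModularGroup.S) ∣[k] heckeDiagMatrix p :=
  ⟨{ toFun := ((⇑F) ∣[k] ModularGroup.S) ∣[k] heckeDiagMatrix p
     slash_action_eq' := fun γ hγ => B1.FrickeInv.slash_invariant hp F γ hγ
     holo' := B1.FrickeBdd.mdiff hp F
     bdd_at_cusps' := fun hc => B1.FrickeBdd.bdd hp F hc }, rfl⟩

end Fermat.Agent.S16
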