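import Mathlib
import Fermat.Prelude.Def_ModularForm_HeckeOperator
import Fermat.Agent.S23.Defs

/-!
# S16 / B1 / MatA (leaf; statement FROZEN by helper7): `S · diag(p,1) · S T^j = -[1, j; 0, p]`

Notation: `S, T : SL(2,ℤ)` (`ModularGroup.S = [0, -1; 1, 0]`, `ModularGroup.T = [1, 1; 0, 1]`,
`ModularGroup.coe_S`, `ModularGroup.coe_T`, `ModularGroup.coe_T_zpow`; `T^j = [1, j; 0, 1]`),
`D = heckeDiagMatrix p = [p, 0; 0, 1]`, `M_j = heckeMatrix p j = [1, j; 0, p]` in `GL (Fin 2) ℝ`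
(Prelude `Def_ModularForm_HeckeOperator`: `val_heckeDiagMatrix`, `val_heckeMatrix`, valid for `p ≠ 0`).
The coercion `SL(2,ℤ) → GL (Fin 2) ℝ` is the monoid hom `Matrix.SpecialLinearGroup.mapGL ℝ`.

In `GL (Fin 2) ℝ`:  `↑S * D * ↑(S * T^j) = ↑(-1 : SL(2,ℤ)) * M_j`  (`S D S T^j = -[1, j; 0, p]`; prove
entrywise: `ext a b; fin_cases a <;> fin_cases b <;> simp [...]`).  `-1 ∈ Γ₀(p)`
(`CongruenceSubgroup.Gamma0_mem`), so `F ∣[k] ↑(-1) = F`
(`SlashInvariantFormClass.slash_action_eq F _ ⟨-1, h, rfl⟩`), and by `SlashAction.slash_mul`,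
`ModularForm.SL_slash`:
`((F ∣ S) ∣ D) ∣ (S T^j) = F ∣ (↑S * D * ↑(S T^j)) = (F ∣ ↑(-1)) ∣ M_j = F ∣ M_j`.
Auxiliary lemmas: prefix `B1.MatA.aux_`.
-/

set_option autoImplicit false

open UpperHalfPlane ModularForm CongruenceSubgroup
open scoped MatrixGroups ModularForm

namespace Fermat.Agent.S16

open Fermat.Agent.S23 (Gam psi)

theorem B1.MatA.aux_coe_T_pow (j : ℕ) :
    ((ModularGroup.T ^ j : SL(2, ℤ)) : Matrix (Fin 2) (Fin 2) ℤ) = !![1, (j : ℤ); 0, 1] := by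
  have h := ModularGroup.coe_T_zpow (j : ℤ)
  rwa [zpow_natCast] at h

theorem B1.MatA.aux_coe_mapGL (g : SL(2, ℤ)) :
    ((Matrix.SpecialLinearGroup.mapGL ℝ g : GL (Fin 2) ℝ) : Matrix (Fin 2) (Fin 2) ℝ) =
      (g : Matrix (Fin 2) (Fin 2) ℤ).map (Int.cast : ℤ → ℝ) := rfl

theorem B1.MatA.aux_mat {p : ℕ} (hp : p ≠ 0) (j : ℕ) :
    Matrix.SpecialLinearGroup.mapGL ℝ ModularGroup.S * heckeDiagMatrix p *
      Matrix.SpecialLinearGroup.mapGL ℝ (ModularGroup.S * ModularGroup.T ^ j) =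
    Matrix.SpecialLinearGroup.mapGL ℝ (-1 : SL(2, ℤ)) * heckeMatrix p j := by
  have hS : ((ModularGroup.S : SL(2, ℤ)) : Matrix (Fin 2) (Fin 2) ℤ) = !![0, -1; 1, 0] :=
    ModularGroup.coe_S
  have hST : ((ModularGroup.S * ModularGroup.T ^ j : SL(2, ℤ)) : Matrix (Fin 2) (Fin 2) ℤ) =
      !![0, -1; 1, (j : ℤ)] := by
    rw [Matrix.SpecialLinearGroup.coe_mul, B1.MatA.aux_coe_T_pow, ModularGroup.coe_S]
    ext a b
    fin_cases a <;> fin_cases b <;> simp [Matrix.mul_apply, Fin.sum_univ_two]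
  have hneg : ((-1 : SL(2, ℤ)) : Matrix (Fin 2) (Fin 2) ℤ) = !![-1, 0; 0, -1] := by
    rw [Matrix.SpecialLinearGroup.coe_neg, Matrix.SpecialLinearGroup.coe_one]
    ext a b
    fin_cases a <;> fin_cases b <;> simp
  apply Units.ext
  rw [Units.val_mul, Units.val_mul, Units.val_mul, B1.MatA.aux_coe_mapGL, B1.MatA.aux_coe_mapGL,
    B1.MatA.aux_coe_mapGL, hS, hST, hneg, val_heckeDiagMatrix hp, val_heckeMatrix hp]
  ext a b
  fin_cases a <;> fin_cases b <;> simp [Matrix.mul_apply, Fin.sum_univ_two]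

theorem B1.MatA.slash_fricke_S_T {p : ℕ} (hp : p.Prime) {k : ℤ} (F : ModularForm (Gam p) k)
    (j : ℕ) :
    (((⇑F) ∣[k] ModularGroup.S) ∣[k] heckeDiagMatrix p) ∣[k]
        (ModularGroup.S * ModularGroup.T ^ j) = (⇑F) ∣[k] heckeMatrix p j := by
  have hneg : (-1 : SL(2, ℤ)) ∈ Gamma0 p := by
    rw [Gamma0_mem]
    simp
  have hinv : (⇑F) ∣[k] (Matrix.SpecialLinearGroup.mapGL ℝ (-1 : SL(2, ℤ))) = ⇑F :=
    SlashInvariantFormClass.slash_action_eq F _ ⟨-1, hneg, rfl⟩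
  have e1 : (((⇑F) ∣[k] ModularGroup.S) ∣[k] heckeDiagMatrix p) ∣[k]
        (ModularGroup.S * ModularGroup.T ^ j) =
      (⇑F) ∣[k] (Matrix.SpecialLinearGroup.mapGL ℝ ModularGroup.S * heckeDiagMatrix p *
        Matrix.SpecialLinearGroup.mapGL ℝ (ModularGroup.S * ModularGroup.T ^ j)) := by
    rw [SlashAction.slash_mul k (Matrix.SpecialLinearGroup.mapGL ℝ ModularGroup.S * heckeDiagMatrix p)
        (Matrix.SpecialLinearGroup.mapGL ℝ (ModularGroup.S * ModularGroup.T ^ j)) (⇑F),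
      SlashAction.slash_mul k (Matrix.SpecialLinearGroup.mapGL ℝ ModularGroup.S) (heckeDiagMatrix p)
        (⇑F)]
    rfl
  rw [e1, B1.MatA.aux_mat hp.ne_zero j, SlashAction.slash_mul, hinv]

end Fermat.Agent.S16
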