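import Mathlib
import Fermat.Prelude.Def_ModularForm_HeckeOperator
import Fermat.Agent.S23.Defs

/-!
# S16 / B1 / MatB (leaf; statement FROZEN by helper7): `diag(p,1) · [1, j; 0, p] = p · T^j` in weight 2

`D = heckeDiagMatrix p = [p, 0; 0, 1]`, `M_j = heckeMatrix p j = [1, j; 0, p]` in `GL (Fin 2) ℝ`
(Prelude `Def_ModularForm_HeckeOperator`: `slash_heckeMatrix_apply`, `slash_heckeDiagMatrix_apply`,
`coe_heckeMatrix_smul`, `coe_heckeDiagMatrix_smul`), `T = ModularGroup.T : SL(2,ℤ)`.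

Pointwise, for any function `f : ℍ → ℂ` (weight 2):
`((f ∣[2] D) ∣[2] M_j) z = p⁻¹ * (f ∣[2] D) (M_j • z) = p⁻¹ * p ^ (2 - 1) * f (D • M_j • z) = f (D • M_j • z)`
and `D • M_j • z = T^j • z` (`UpperHalfPlane.ext`: both have coercion `z + j`;
`UpperHalfPlane.modular_T_zpow_smul`, `UpperHalfPlane.coe_vadd`, `zpow_natCast`), while
`(f ∣[2] T^j) z = f (T^j • z)` (`ModularForm.SL_slash_apply`: `(f ∣[k] γ) z = f (γ • z) * denom γ z ^ (-k)`,
and `denom (T^j) z = 1` since the bottom row of `T^j` is `(0, 1)`).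
Auxiliary lemmas: prefix `B1.MatB.aux_`.
-/

set_option autoImplicit false

open UpperHalfPlane ModularForm CongruenceSubgroup
open scoped MatrixGroups ModularForm

namespace Fermat.Agent.S16

/-- The denominator of a power of `T` is `1`. -/
theorem B1.MatB.aux_denom_T_pow (j : ℕ) (z : ℍ) :
    denom (ModularGroup.T ^ j : SL(2, ℤ)) z = 1 := by
  rw [ModularGroup.denom_apply, ← zpow_natCast, ModularGroup.coe_T_zpow]
  simp

/-- `diag(p, 1) • [1, j; 0, p] • z = T ^ j • z`. -/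
theorem B1.MatB.aux_smul_smul {p : ℕ} (hp : p ≠ 0) (j : ℕ) (z : ℍ) :
    heckeDiagMatrix p • heckeMatrix p j • z = (ModularGroup.T ^ j : SL(2, ℤ)) • z := by
  have hp' : (p : ℂ) ≠ 0 := by exact_mod_cast hp
  apply UpperHalfPlane.ext
  rw [coe_heckeDiagMatrix_smul hp, coe_heckeMatrix_smul hp, ← zpow_natCast,
    ModularGroup.coe_T_zpow_smul_eq]
  push_cast
  field_simp

theorem B1.MatB.slash_diag_heckeMatrix {p : ℕ} (hp : p ≠ 0) (f : ℍ → ℂ) (j : ℕ) :
    (f ∣[(2 : ℤ)] heckeDiagMatrix p) ∣[(2 : ℤ)] heckeMatrix p j =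
      f ∣[(2 : ℤ)] (ModularGroup.T ^ j) := by
  have hp' : (p : ℂ) ≠ 0 := by exact_mod_cast hp
  funext z
  rw [slash_heckeMatrix_apply 2 hp, slash_heckeDiagMatrix_apply 2 hp, ModularForm.SL_slash_apply,
    B1.MatB.aux_denom_T_pow, B1.MatB.aux_smul_smul hp, one_zpow, mul_one]
  norm_num
  rw [← mul_assoc, inv_mul_cancel₀ hp', one_mul]

end Fermat.Agent.S16
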