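import Mathlib
import Fermat.Agent.S16.COS.Trace
import Fermat.Agent.S16.B1.Fricke
import Fermat.Agent.S16.B1.MatA
import Fermat.Agent.S16.B1.MatB

/-!
# S16 / B1 / Op (assembly, helper7): `F ∣ S ∣ diag(p,1) = -U_p F` in weight 2
-/

set_option autoImplicit false

open UpperHalfPlane ModularForm CongruenceSubgroup
open scoped MatrixGroups ModularForm

namespace Fermat.Agent.S16

open Fermat.Agent.S23 (Gam psi)

theorem B1.Op.slash_S_diag {p : ℕ} (hp : p.Prime) (F : ModularForm (Gam p) 2) :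
    ((⇑F) ∣[(2 : ℤ)] ModularGroup.S) ∣[(2 : ℤ)] heckeDiagMatrix p = -heckeU 2 p ⇑F := by
  obtain ⟨g, hg⟩ := B1.Fricke.exists_fricke hp F
  rw [← hg]
  ext z
  have h := COS.Trace.trace_weight_two hp g z
  have h2 : ∀ j ∈ Finset.range p,
      ((⇑g) ∣[(2 : ℤ)] (ModularGroup.S * ModularGroup.T ^ j)) z
        = ((⇑F) ∣[(2 : ℤ)] heckeMatrix p j) z := by
    intro j _
    rw [hg, B1.MatA.slash_fricke_S_T hp F j]
  rw [Finset.sum_congr rfl h2] at h
  rw [Pi.neg_apply, heckeU_def, Finset.sum_apply]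
  exact eq_neg_of_add_eq_zero_left h

theorem B1.Op.slash_S_T {p : ℕ} (hp : p.Prime) (F : ModularForm (Gam p) 2) (j : ℕ) :
    (⇑F) ∣[(2 : ℤ)] (ModularGroup.S * ModularGroup.T ^ j) =
      -((heckeU 2 p ⇑F) ∣[(2 : ℤ)] heckeMatrix p j) := by
  have h1 := B1.Op.slash_S_diag hp F
  have h2 := B1.MatB.slash_diag_heckeMatrix hp.ne_zero ((⇑F) ∣[(2 : ℤ)] ModularGroup.S) j
  rw [h1] at h2
  rw [← SlashAction.neg_slash, h2]
  exact SlashAction.slash_mul _ _ _ _

end Fermat.Agent.S16
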