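import Mathlib
import Fermat.Agent.S16.COS.Decomp
import Fermat.Agent.S16.B1.Op
import Fermat.Agent.S16.B1.ExpU

/-!
# S16 / B1 / Cusp (leaf; statement FROZEN by helper7): (CUSP) `a₀(F) = 0` ⇒ `F` is a cusp form

`p` prime, `F ∈ M₂(Γ₀(p))` with `(qExpansion 1 F).coeff 0 = 0`.  Inputs (import them, do not reprove):
* `B1.ExpU.isZeroAtImInfty_of_coeff_zero hp F h0 : IsZeroAtImInfty ⇑F`;
* `B1.ExpU.isZeroAtImInfty_heckeU hp F h0 : IsZeroAtImInfty (heckeU 2 p ⇑F)`;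
* `B1.Op.slash_S_T hp F j : ⇑F ∣[2] (S * T ^ j) = -((heckeU 2 p ⇑F) ∣[2] heckeMatrix p j)`;
* `COS.Decomp.slash_eq_of_dvd F γ h : ⇑F ∣[k] γ = ⇑F` (for `(p:ℤ) ∣ γ 1 0`);
* `COS.Decomp.slash_eq_of_not_dvd hp F γ h : ∃ j < p, ⇑F ∣[k] γ = ⇑F ∣[k] (S * T ^ j)`.

So for every `γ : SL(2,ℤ)`, `F ∣[2] γ` is zero at `i∞`: either it is `F`, or it is
`-((U F) ∣[2] heckeMatrix p j)`, and slashing by an upper triangular matrix preserves `IsZeroAtImInfty`
(`UpperHalfPlane.IsZeroAtImInfty.slash (hg : g 1 0 = 0)` in `Mathlib/NumberTheory/ModularForms/BoundedAtCusp.lean`;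
`ModularForm.val_heckeMatrix`), as does negation.
The cusp form: `{ toFun := ⇑F, slash_action_eq' := F.slash_action_eq', holo' := F.holo', zero_at_cusps' := … }`
where for a cusp `c` of `Gam p`: `Subgroup.IsArithmetic.isCusp_iff_isCusp_SL2Z` and
`OnePoint.isZeroAt_iff_forall_SL2Z` (same file `BoundedAtCusp.lean`; compare the construction of
`esymmForm` in `Fermat/Agent/S23/Esymm.lean`, which does the bounded analogue).
The instance `NeZero p` is `⟨hp.ne_zero⟩` if needed.  Auxiliary lemmas: prefix `B1.Cusp.aux_`.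
-/

set_option autoImplicit false

open UpperHalfPlane ModularForm CongruenceSubgroup
open scoped MatrixGroups ModularForm

namespace Fermat.Agent.S16

open Fermat.Agent.S23 (Gam psi)

theorem B1.Cusp.exists_cuspForm {p : ℕ} (hp : p.Prime) (F : ModularForm (Gam p) 2)
    (h0 : (qExpansion 1 F).coeff 0 = 0) : ∃ f : CuspForm (Gam p) 2, ∀ z : ℍ, f z = F z := by
  have : NeZero p := ⟨hp.ne_zero⟩
  have hF := B1.ExpU.isZeroAtImInfty_of_coeff_zero hp F h0
  have hU := B1.ExpU.isZeroAtImInfty_heckeU hp F h0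
  have key : ∀ γ : SL(2, ℤ), IsZeroAtImInfty ((⇑F) ∣[(2 : ℤ)] γ) := by
    intro γ
    by_cases h : (p : ℤ) ∣ γ 1 0
    · rw [COS.Decomp.slash_eq_of_dvd F γ h]; exact hF
    · obtain ⟨j, -, hj⟩ := COS.Decomp.slash_eq_of_not_dvd hp F γ h
      rw [hj, B1.Op.slash_S_T hp F j]
      have h1 : IsZeroAtImInfty ((heckeU 2 p ⇑F) ∣[(2 : ℤ)] heckeMatrix p j) :=
        hU.slash 2 (by
          have := val_heckeMatrix hp.ne_zero j
          show ((heckeMatrix p j : GL (Fin 2) ℝ) : Matrix (Fin 2) (Fin 2) ℝ) 1 0 = 0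
          rw [this]; simp)
      have h2 := h1.neg
      exact h2
  refine ⟨{ toFun := ⇑F, slash_action_eq' := F.slash_action_eq', holo' := F.holo',
            zero_at_cusps' := ?_ }, fun z => rfl⟩
  intro c hc
  rw [Subgroup.IsArithmetic.isCusp_iff_isCusp_SL2Z] at hc
  rw [OnePoint.isZeroAt_iff_forall_SL2Z hc]
  intro γ _
  exact key γ

end Fermat.Agent.S16
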