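import Mathlib
import Fermat.Agent.S16.MF.Exp
import Fermat.Agent.S16.COS.Decomp
import Fermat.Agent.S16.B1.Op
import Fermat.Agent.S16.B1.ExpU

/-!
# S16 / B1 / ExpS (leaf; statements FROZEN by helper7): expansions of `F ∣ S T^j` and `F ∣ γ`

`p` prime, `F ∈ M₂(Γ₀(p))`, `U F = heckeU 2 p ⇑F`.  Inputs (import them, do not reprove):
* `B1.Op.slash_S_T hp F j : ⇑F ∣[2] (S * T ^ j) = -((heckeU 2 p ⇑F) ∣[2] heckeMatrix p j)`;
* `B1.ExpU.hasExp_heckeU hp F : HasExp 1 (heckeU 2 p ⇑F) (PowerSeries.mk fun n => (qExpansion 1 F).coeff (p * n))`;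
* `COS.Decomp.slash_eq_of_not_dvd hp F γ h : ∃ j < p, ⇑F ∣[k] γ = ⇑F ∣[k] (S * T ^ j)`;
* the `HasExp` calculus of `Fermat/Agent/S16/MF/Exp.lean` (READ IT: `HasExp.comp_affine`, `HasExp.smul`,
  `HasExp.neg`, `HasExp.congr`, `hasExp_iff_exp`);
* Prelude `ModularForm.slash_heckeMatrix_apply : (f ∣[k] heckeMatrix p j) τ = (p:ℂ)⁻¹ * f (heckeMatrix p j • τ)`
  and `ModularForm.coe_heckeMatrix_smul : ((heckeMatrix p j • τ : ℍ) : ℂ) = ((τ:ℂ) + j) / p` (for `p ≠ 0`).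

`hasExp_S_T`: `(F ∣ S T^j)(z) = -(1/p) (U F)(w)`, `w = (z + j)/p`; `HasExp.comp_affine p hp0 j` turns
`HasExp 1 (U F) B` into `HasExp (1 * p) (z ↦ (U F)(w)) (rescale (exp (2πi j / (1 * p))) B)`; then
`HasExp.smul (-(1/p))`, and compare coefficients (`PowerSeries.ext`, `PowerSeries.coeff_rescale`,
`PowerSeries.coeff_mk`, `PowerSeries.coeff_smul`); rewrite `1 * p = p`.
`hasExp_S`: `j = 0` (`pow_zero`, `mul_one`, `exp 0 = 1`, `PowerSeries.rescale_one`).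
`hasSum_of_not_dvd`: from `hasExp_of_not_dvd` via `hasExp_iff_exp` and `HasSum.mul_left (-(p:ℂ))`:
`-p * (ζ^(j k) * (-(1/p)) a_{pk}) * exp (2πi k z / p) = a_{pk} * exp (2πi k (z + j) / p)`
(`Complex.exp_add`, `← Complex.exp_nat_mul`); `ModularFormClass.qCoeff F n = (qExpansion 1 F).coeff n` by `rfl`.
Auxiliary lemmas: prefix `B1.ExpS.aux_`.
-/

set_option autoImplicit false

open UpperHalfPlane ModularForm CongruenceSubgroup
open scoped MatrixGroups ModularForm Real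

namespace Fermat.Agent.S16

open Fermat.Agent.S23 (Gam psi)

theorem B1.ExpS.hasExp_S_T {p : ℕ} (hp : p.Prime) (F : ModularForm (Gam p) 2) (j : ℕ) :
    HasExp p ((⇑F) ∣[(2 : ℤ)] (ModularGroup.S * ModularGroup.T ^ j))
      (PowerSeries.rescale (Complex.exp (2 * (π : ℂ) * Complex.I * (j : ℂ) / (p : ℂ)))
        (PowerSeries.mk fun k => -(1 / (p : ℂ)) * (qExpansion 1 F).coeff (p * k))) := by
  have hp0 : p ≠ 0 := hp.ne_zero
  have hU := B1.ExpU.hasExp_heckeU hp F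
  -- the function `z ↦ (U F) ((z + j) / p)`
  have h1 := HasExp.comp_affine (G' := fun z : ℍ => heckeU 2 p (⇑F) (heckeMatrix p j • z))
    p hp0 (j : ℤ) hU (by
      intro z w hw
      have hwz : w = heckeMatrix p j • z := by
        apply UpperHalfPlane.ext
        rw [hw, ModularForm.coe_heckeMatrix_smul hp0 j z]
        push_cast
        rfl
      rw [hwz])
  have h2 := h1.smul (-(1 / (p : ℂ)))
  rw [one_mul] at h2
  have hB : (-(1 / (p : ℂ))) • PowerSeries.rescale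
      (Complex.exp (2 * (π : ℂ) * Complex.I * ((j : ℤ) : ℂ) / (((1 : ℕ) : ℂ) * (p : ℂ))))
        (PowerSeries.mk fun n => (qExpansion 1 F).coeff (p * n)) =
      PowerSeries.rescale (Complex.exp (2 * (π : ℂ) * Complex.I * (j : ℂ) / (p : ℂ)))
        (PowerSeries.mk fun k => -(1 / (p : ℂ)) * (qExpansion 1 F).coeff (p * k)) := by
    ext n
    rw [PowerSeries.coeff_smul, PowerSeries.coeff_rescale, PowerSeries.coeff_rescale,
      PowerSeries.coeff_mk, PowerSeries.coeff_mk, smul_eq_mul]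
    push_cast
    rw [one_mul]
    ring
  rw [hB] at h2
  refine h2.congr fun z => ?_
  rw [B1.Op.slash_S_T hp F j, Pi.neg_apply, ModularForm.slash_heckeMatrix_apply 2 hp0 j _ z,
    Pi.smul_apply, smul_eq_mul]
  ring

theorem B1.ExpS.hasExp_S {p : ℕ} (hp : p.Prime) (F : ModularForm (Gam p) 2) :
    HasExp p ((⇑F) ∣[(2 : ℤ)] ModularGroup.S)
      (PowerSeries.mk fun k => -(1 / (p : ℂ)) * (qExpansion 1 F).coeff (p * k)) := by
  have h := B1.ExpS.hasExp_S_T hp F 0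
  rw [pow_zero, mul_one, Nat.cast_zero, mul_zero, zero_div, Complex.exp_zero,
    PowerSeries.rescale_one, RingHom.id_apply] at h
  exact h

theorem B1.ExpS.hasExp_of_not_dvd {p : ℕ} (hp : p.Prime) (F : ModularForm (Gam p) 2)
    (γ : SL(2, ℤ)) (h : ¬ (p : ℤ) ∣ γ 1 0) :
    ∃ j : ℕ, j < p ∧ HasExp p ((⇑F) ∣[(2 : ℤ)] γ)
      (PowerSeries.rescale (Complex.exp (2 * (π : ℂ) * Complex.I * (j : ℂ) / (p : ℂ)))
        (PowerSeries.mk fun k => -(1 / (p : ℂ)) * (qExpansion 1 F).coeff (p * k))) := by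
  obtain ⟨j, hj, hγ⟩ := COS.Decomp.slash_eq_of_not_dvd hp F γ h
  exact ⟨j, hj, hγ ▸ B1.ExpS.hasExp_S_T hp F j⟩

theorem B1.ExpS.hasSum_of_not_dvd {p : ℕ} (hp : p.Prime) (F : ModularForm (Gam p) 2)
    (γ : SL(2, ℤ)) (h : ¬ (p : ℤ) ∣ γ 1 0) :
    ∃ j : ℕ, j < p ∧ ∀ z : ℍ, HasSum (fun k : ℕ => ModularFormClass.qCoeff F (p * k) *
      Complex.exp (2 * (π : ℂ) * Complex.I * ((k : ℂ) * ((z : ℂ) + (j : ℂ)) / (p : ℂ))))
      (-(p : ℂ) * ((⇑F) ∣[(2 : ℤ)] γ) z) := by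
  have hp0 : (p : ℂ) ≠ 0 := Nat.cast_ne_zero.mpr hp.ne_zero
  obtain ⟨j, hj, hE⟩ := B1.ExpS.hasExp_of_not_dvd hp F γ h
  refine ⟨j, hj, fun z => ?_⟩
  have h1 := ((hasExp_iff_exp _ _ _).mp hE z).mul_left (-(p : ℂ))
  have hfun : (fun k : ℕ => ModularFormClass.qCoeff F (p * k) *
      Complex.exp (2 * (π : ℂ) * Complex.I * ((k : ℂ) * ((z : ℂ) + (j : ℂ)) / (p : ℂ)))) =
      fun k : ℕ => -(p : ℂ) * (PowerSeries.coeff k
        (PowerSeries.rescale (Complex.exp (2 * (π : ℂ) * Complex.I * (j : ℂ) / (p : ℂ)))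
          (PowerSeries.mk fun k => -(1 / (p : ℂ)) * (qExpansion 1 F).coeff (p * k))) *
        Complex.exp (2 * (π : ℂ) * Complex.I * ((k : ℂ) * (z : ℂ) / (p : ℂ)))) := by
    funext k
    rw [PowerSeries.coeff_rescale, PowerSeries.coeff_mk, ← Complex.exp_nat_mul]
    have h2 : ModularFormClass.qCoeff (⇑F) (p * k) = (qExpansion 1 F).coeff (p * k) := rfl
    have h3 : Complex.exp
        (2 * (π : ℂ) * Complex.I * ((k : ℂ) * ((z : ℂ) + (j : ℂ)) / (p : ℂ))) =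
        Complex.exp ((k : ℂ) * (2 * (π : ℂ) * Complex.I * (j : ℂ) / (p : ℂ))) *
          Complex.exp (2 * (π : ℂ) * Complex.I * ((k : ℂ) * (z : ℂ) / (p : ℂ))) := by
      rw [← Complex.exp_add]
      congr 1
      ring
    rw [h2, h3]
    field_simp
  rw [hfun]
  exact h1

end Fermat.Agent.S16
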