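import Mathlib
import Fermat.Prelude.Def_ModularForm_HeckeOperator
import Fermat.Prelude.Def_FLTPrelim_Modularity
import Fermat.Agent.S23.Defs
import Fermat.Agent.S16.MF.Exp
import Fermat.Agent.S16.COS.Iface
import Fermat.Agent.S16.B1.Op
import Fermat.Agent.S16.B1.ExpS
import Fermat.Agent.S16.B1.Cusp

/-!
# S16 / B1 / Iface (owner helper7): the expansion of `F ∣ S` for `F ∈ M₂(Γ₀(p))`, and (CUSP)

Statements FROZEN (bodies are filled in place by helper7's team).  `p` prime, `F ∈ M₂(Γ₀(p))`,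
`U F = heckeU 2 p F = Σ_{j<p} F ∣ [1, j; 0, p]` (so `(U F)(z) = Σ_k a_{pk}(F) q^k`).

* `B1.slash_S_diag`  : `F ∣ S ∣ [p, 0; 0, 1] = -U F`   (Fricke + vanishing of the trace in weight 2);
* `B1.slash_S_T`     : `F ∣ S T^j = -(U F) ∣ [1, j; 0, p]`, i.e.
                       `(F ∣ S T^j)(z) = -(1/p) (U F)((z + j)/p)`;
* `B1.hasExp_S`      : `(F ∣ S)(z) = Σ_k -(1/p) a_{pk}(F) x^k`, `x = e^{2πiz/p}`;
* `B1.hasSum_S`      : the same as a `HasSum`;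
* `B1.hasExp_of_not_dvd`, `B1.hasSum_of_not_dvd` : the same for `F ∣ γ`, `p ∤ c(γ)`;
* `B1.exists_cuspForm` (CUSP): `a₀(F) = 0` ⇒ `F` is a cusp form.
-/

set_option autoImplicit false

open UpperHalfPlane ModularForm CongruenceSubgroup
open scoped MatrixGroups ModularForm Real

namespace Fermat.Agent.S16

open Fermat.Agent.S23 (Gam psi)

/-- `F ∣ S ∣ diag(p, 1) = -U_p F` for `F ∈ M₂(Γ₀(p))`. -/
theorem B1.slash_S_diag {p : ℕ} (hp : p.Prime) (F : ModularForm (Gam p) 2) :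
    ((⇑F) ∣[(2 : ℤ)] ModularGroup.S) ∣[(2 : ℤ)] heckeDiagMatrix p = -heckeU 2 p ⇑F :=
  B1.Op.slash_S_diag hp F

/-- `F ∣ S T^j = -(U_p F) ∣ [1, j; 0, p]` for `F ∈ M₂(Γ₀(p))`. -/
theorem B1.slash_S_T {p : ℕ} (hp : p.Prime) (F : ModularForm (Gam p) 2) (j : ℕ) :
    (⇑F) ∣[(2 : ℤ)] (ModularGroup.S * ModularGroup.T ^ j) =
      -((heckeU 2 p ⇑F) ∣[(2 : ℤ)] heckeMatrix p j) :=
  B1.Op.slash_S_T hp F j

/-- (B1) `(F ∣ S)(z) = -(1/p) Σ_k a_{pk}(F) x^k`, `x = e^{2πiz/p}`. -/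
theorem B1.hasExp_S {p : ℕ} (hp : p.Prime) (F : ModularForm (Gam p) 2) :
    HasExp p ((⇑F) ∣[(2 : ℤ)] ModularGroup.S)
      (PowerSeries.mk fun k => -(1 / (p : ℂ)) * (qExpansion 1 F).coeff (p * k)) :=
  B1.ExpS.hasExp_S hp F

/-- (B1) as a `HasSum`. -/
theorem B1.hasSum_S {p : ℕ} (hp : p.Prime) (F : ModularForm (Gam p) 2) (z : ℍ) :
    HasSum (fun m : ℕ => (-(1 / (p : ℂ)) * (qExpansion 1 F).coeff (p * m)) *
      Function.Periodic.qParam (p : ℝ) (z : ℂ) ^ m) (((⇑F) ∣[(2 : ℤ)] ModularGroup.S) z) := by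
  have h := B1.hasExp_S hp F z
  simpa [PowerSeries.coeff_mk] using h

/-- (B1) for a general translate: if `p ∤ c(γ)` then, for some `j < p`,
`(F ∣ γ)(z) = Σ_k -(1/p) a_{pk}(F) ζ^{jk} x^k` with `ζ = e^{2πi/p}`, `x = e^{2πiz/p}`. -/
theorem B1.hasExp_of_not_dvd {p : ℕ} (hp : p.Prime) (F : ModularForm (Gam p) 2) (γ : SL(2, ℤ))
    (h : ¬ (p : ℤ) ∣ γ 1 0) :
    ∃ j : ℕ, j < p ∧ HasExp p ((⇑F) ∣[(2 : ℤ)] γ)
      (PowerSeries.rescale (Complex.exp (2 * (π : ℂ) * Complex.I * (j : ℂ) / (p : ℂ)))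
        (PowerSeries.mk fun k => -(1 / (p : ℂ)) * (qExpansion 1 F).coeff (p * k))) :=
  B1.ExpS.hasExp_of_not_dvd hp F γ h

/-- (B1) for a general translate, as a `HasSum` with explicit exponentials. -/
theorem B1.hasSum_of_not_dvd {p : ℕ} (hp : p.Prime) (F : ModularForm (Gam p) 2) (γ : SL(2, ℤ))
    (h : ¬ (p : ℤ) ∣ γ 1 0) :
    ∃ j : ℕ, j < p ∧ ∀ z : ℍ, HasSum (fun k : ℕ => ModularFormClass.qCoeff F (p * k) *
      Complex.exp (2 * (π : ℂ) * Complex.I * ((k : ℂ) * ((z : ℂ) + (j : ℂ)) / (p : ℂ))))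
      (-(p : ℂ) * ((⇑F) ∣[(2 : ℤ)] γ) z) :=
  B1.ExpS.hasSum_of_not_dvd hp F γ h

/-- (CUSP) A form in `M₂(Γ₀(p))` with vanishing constant term is a cusp form. -/
theorem B1.exists_cuspForm {p : ℕ} (hp : p.Prime) (F : ModularForm (Gam p) 2)
    (h0 : (qExpansion 1 F).coeff 0 = 0) : ∃ f : CuspForm (Gam p) 2, ∀ z : ℍ, f z = F z :=
  B1.Cusp.exists_cuspForm hp F h0

end Fermat.Agent.S16
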