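import Mathlib
import Fermat.Prelude.Def_ModularForm_HeckeOperator
import Fermat.Agent.S23.Defs

/-!
# S16 / B1 / FrickeBdd (ALT copy for an independent second prover; leaf; statements FROZEN by helper7): `F ∣ S ∣ diag(p,1)` is holomorphic
and bounded at all cusps

`W := S · diag(p, 1) = [0, -1; p, 0]` as an element of `GL (Fin 2) ℝ`:
`(ModularGroup.S : GL (Fin 2) ℝ) * ModularForm.heckeDiagMatrix p`; the coercion of `SL(2,ℤ)` is
`Matrix.SpecialLinearGroup.mapGL ℝ`; `ModularForm.val_heckeDiagMatrix`.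
`(F ∣[k] S) ∣[k] heckeDiagMatrix p = F ∣[k] W` (`SlashAction.slash_mul`, `ModularForm.SL_slash`).

* `mdiff`: `(ModularForm.translate F W).holo'` with `ModularForm.coe_translate : ⇑(translate f g) = ⇑f ∣[k] g`
  (Mathlib `NumberTheory/ModularForms/Basic.lean`, section `translate`).
* `bdd`: `W = Matrix.GeneralLinearGroup.map (Rat.castHom ℝ) W_ℚ` for the rational matrix
  `W_ℚ = [0, -1; p, 0] : GL (Fin 2) ℚ` (entrywise `ext`).  As in the proof of the Prelude lemma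
  `ModularFormClass.isBoundedAt_heckeT` (READ `Fermat/Prelude/Sol/S_ModularFormClass_isBoundedAt_heckeT.lean`,
  lemmas `isCusp_ratCast_smul`, `isBoundedAt_slash_ratCast`, `exists_heckeDiagMatrix_eq_map`; re-prove
  the two 3-line lemmas here under fresh names): for a cusp `c` of an arithmetic group `Γ` and
  `g : GL (Fin 2) ℚ`, `map g • c` is again a cusp (`Subgroup.IsArithmetic.isCusp_iff_isCusp_SL2Z`,
  `isCusp_SL2Z_iff`, `OnePoint.map_smul`), hence `c.IsBoundedAt (F ∣[k] map g) k` by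
  `OnePoint.IsBoundedAt.smul_iff` and `ModularFormClass.bdd_at_cusps`.
The instance `NeZero p` is `⟨hp.ne_zero⟩` if needed; `(Gam p).IsArithmetic` is found by instance search
(as in `Fermat/Agent/S23/Esymm.lean`).
Auxiliary lemmas: prefix `B1.FrickeBddAlt.aux_`.
-/

set_option autoImplicit false

open UpperHalfPlane ModularForm CongruenceSubgroup
open scoped MatrixGroups ModularForm Manifold

namespace Fermat.Agent.S16

open Fermat.Agent.S23 (Gam psi)

/-- Cusps of an arithmetic group are stable under `SL(2, ℤ)`. -/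
theorem B1.FrickeBddAlt.aux_isCusp_SL_smul {Γ : Subgroup (GL (Fin 2) ℝ)} [Γ.IsArithmetic]
    {c : OnePoint ℝ} (hc : IsCusp c Γ) (γ : SL(2, ℤ)) :
    IsCusp (Matrix.SpecialLinearGroup.mapGL ℝ γ • c) Γ := by
  rw [Subgroup.IsArithmetic.isCusp_iff_isCusp_SL2Z, isCusp_SL2Z_iff'] at hc ⊢
  obtain ⟨g, rfl⟩ := hc
  exact ⟨γ * g, by rw [map_mul, mul_smul]⟩

/-- Cusps of an arithmetic group are stable under `GL(2, ℚ)`. -/
theorem B1.FrickeBddAlt.aux_isCusp_ratCast_smul {Γ : Subgroup (GL (Fin 2) ℝ)} [Γ.IsArithmetic]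
    {c : OnePoint ℝ} (hc : IsCusp c Γ) (g : GL (Fin 2) ℚ) :
    IsCusp (Matrix.GeneralLinearGroup.map (Rat.castHom ℝ) g • c) Γ := by
  rw [Subgroup.IsArithmetic.isCusp_iff_isCusp_SL2Z, isCusp_SL2Z_iff] at hc ⊢
  obtain ⟨c, rfl⟩ := hc
  exact ⟨g • c, by rw [← Rat.coe_castHom, OnePoint.map_smul]⟩

/-- `diag(p, 1)` is a rational matrix. -/
theorem B1.FrickeBddAlt.aux_heckeDiagMatrix_eq_map {p : ℕ} (hp : p ≠ 0) :
    ∃ g : GL (Fin 2) ℚ,
      heckeDiagMatrix p = Matrix.GeneralLinearGroup.map (Rat.castHom ℝ) g := by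
  have hdet : (!![(p : ℚ), 0; 0, 1] : Matrix (Fin 2) (Fin 2) ℚ).det ≠ 0 := by
    rw [Matrix.det_fin_two_of]
    simpa using hp
  refine ⟨Matrix.GeneralLinearGroup.mkOfDetNeZero !![(p : ℚ), 0; 0, 1] hdet, ?_⟩
  ext i j
  fin_cases i <;> fin_cases j <;>
    simp [heckeDiagMatrix, hp, upperTriangularGL, Matrix.GeneralLinearGroup.mkOfDetNeZero]

set_option linter.unusedVariables false in
theorem B1.FrickeBddAlt.mdiff {p : ℕ} (hp : p.Prime) {k : ℤ} (F : ModularForm (Gam p) k) :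
    MDiff (((⇑F) ∣[k] ModularGroup.S) ∣[k] heckeDiagMatrix p) := by
  have h1 : MDiff ((⇑F) ∣[k] (Matrix.SpecialLinearGroup.mapGL ℝ ModularGroup.S)) :=
    (ModularFormClass.holo F).slash k _
  exact h1.slash k _

theorem B1.FrickeBddAlt.bdd {p : ℕ} (hp : p.Prime) {k : ℤ} (F : ModularForm (Gam p) k)
    {c : OnePoint ℝ} (hc : IsCusp c (Gam p)) :
    c.IsBoundedAt (((⇑F) ∣[k] ModularGroup.S) ∣[k] heckeDiagMatrix p) k := by
  have : NeZero p := ⟨hp.ne_zero⟩
  obtain ⟨g, hg⟩ := B1.FrickeBddAlt.aux_heckeDiagMatrix_eq_map hp.ne_zero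
  rw [ModularForm.SL_slash, ← OnePoint.IsBoundedAt.smul_iff, ← OnePoint.IsBoundedAt.smul_iff]
  apply ModularFormClass.bdd_at_cusps F
  rw [hg]
  exact B1.FrickeBddAlt.aux_isCusp_SL_smul (B1.FrickeBddAlt.aux_isCusp_ratCast_smul hc g) _

end Fermat.Agent.S16
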