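import Mathlib
import Fermat.Prelude.Def_ModularForm_HeckeOperator
import Fermat.Agent.S23.Defs

/-!
# S16 / B1 / FrickeInv (ALT copy for an independent second prover; leaf; statement FROZEN by helper7): `F ∣ S ∣ diag(p,1)` is `Γ₀(p)`-invariant

`W := S · diag(p, 1) = [0, -1; p, 0]` as an element of `GL (Fin 2) ℝ`:
`(ModularGroup.S : GL (Fin 2) ℝ) * ModularForm.heckeDiagMatrix p`; the coercion of `SL(2,ℤ)` is the
monoid hom `Matrix.SpecialLinearGroup.mapGL ℝ`, and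
`ModularForm.val_heckeDiagMatrix : ↑(heckeDiagMatrix p) = !![(p:ℝ), 0; 0, 1]` for `p ≠ 0`.
`(F ∣[k] S) ∣[k] heckeDiagMatrix p = F ∣[k] W` (`SlashAction.slash_mul`, `ModularForm.SL_slash`).

For `γ = [a, b; c, d] ∈ Γ₀(p)` (`CongruenceSubgroup.Gamma0_mem`; so `c = p c'`,
`ZMod.intCast_zmod_eq_zero_iff_dvd`) put `γ' := [d, -c'; -p b, a]` (determinant `a d - b c = 1`;
build it as `⟨!![d, -c'; -p*b, a], by ...⟩ : SL(2,ℤ)`), `γ' ∈ Γ₀(p)`.  Then `W * ↑γ = ↑γ' * W` in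
`GL (Fin 2) ℝ` (entrywise: `ext i j; fin_cases i <;> fin_cases j <;> simp [...]`, the entries are
`[-c, -d; p a, p b]`), so
`(F ∣ W) ∣ γ = F ∣ (W γ) = F ∣ (γ' W) = (F ∣ γ') ∣ W = F ∣ W`
(`SlashInvariantFormClass.slash_action_eq F _ ⟨γ', hγ', rfl⟩`; `Gam p = Subgroup.map (mapGL ℝ) (Gamma0 p)`).
Auxiliary lemmas: prefix `B1.FrickeInvAlt.aux_`.
-/

set_option autoImplicit false

open UpperHalfPlane ModularForm CongruenceSubgroup
open scoped MatrixGroups ModularForm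

namespace Fermat.Agent.S16

open Fermat.Agent.S23 (Gam psi)

/-- The conjugate `γ' = [d, -c'; -p b, a]` of `γ = [a, b; p c', d]` under `W = [0, -1; p, 0]`. -/
def B1.FrickeInvAlt.aux_conj (p : ℕ) (g : SL(2, ℤ)) (c' : ℤ) (hc' : g 1 0 = (p : ℤ) * c') :
    SL(2, ℤ) :=
  ⟨!![g 1 1, -c'; -(p : ℤ) * g 0 1, g 0 0], by
    have hdet : g 0 0 * g 1 1 - g 0 1 * g 1 0 = 1 := by
      have h := g.det_coe
      rwa [Matrix.det_fin_two] at h
    rw [Matrix.det_fin_two_of]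
    rw [hc'] at hdet
    linear_combination hdet⟩

theorem B1.FrickeInvAlt.aux_conj_mem (p : ℕ) (g : SL(2, ℤ)) (c' : ℤ)
    (hc' : g 1 0 = (p : ℤ) * c') : B1.FrickeInvAlt.aux_conj p g c' hc' ∈ Gamma0 p := by
  rw [Gamma0_mem]
  show ((-(p : ℤ) * g 0 1 : ℤ) : ZMod p) = 0
  push_cast
  simp

/-- Entries of the image of an integral matrix in `GL (Fin 2) ℝ`. -/
theorem B1.FrickeInvAlt.aux_mapGL_apply (g : SL(2, ℤ)) (i j : Fin 2) :
    ((Matrix.SpecialLinearGroup.mapGL ℝ g : GL (Fin 2) ℝ) : Matrix (Fin 2) (Fin 2) ℝ) i j =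
      ((g i j : ℤ) : ℝ) := by
  rw [Matrix.SpecialLinearGroup.mapGL_coe_matrix]
  rfl

/-- `W * γ = γ' * W` in `GL (Fin 2) ℝ`, for `W = S * diag(p, 1)`. -/
theorem B1.FrickeInvAlt.aux_comm {p : ℕ} (hp0 : p ≠ 0) (g : SL(2, ℤ)) (c' : ℤ)
    (hc' : g 1 0 = (p : ℤ) * c') :
    (Matrix.SpecialLinearGroup.mapGL ℝ ModularGroup.S) * heckeDiagMatrix p *
        (Matrix.SpecialLinearGroup.mapGL ℝ g) =
      (Matrix.SpecialLinearGroup.mapGL ℝ (B1.FrickeInvAlt.aux_conj p g c' hc')) *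
        ((Matrix.SpecialLinearGroup.mapGL ℝ ModularGroup.S) * heckeDiagMatrix p) := by
  apply Units.ext
  have h10 : ((g 1 0 : ℤ) : ℝ) = (p : ℝ) * (c' : ℝ) := by
    rw [hc']; push_cast; ring
  ext i j
  simp only [Units.val_mul, Matrix.mul_apply, Fin.sum_univ_two,
    B1.FrickeInvAlt.aux_mapGL_apply, val_heckeDiagMatrix hp0]
  fin_cases i <;> fin_cases j <;>
    simp [ModularGroup.coe_S, B1.FrickeInvAlt.aux_conj, h10] <;>
    ring

theorem B1.FrickeInvAlt.slash_invariant {p : ℕ} (hp : p.Prime) {k : ℤ} (F : ModularForm (Gam p) k)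
    (γ : GL (Fin 2) ℝ) (hγ : γ ∈ Gam p) :
    (((⇑F) ∣[k] ModularGroup.S) ∣[k] heckeDiagMatrix p) ∣[k] γ =
      ((⇑F) ∣[k] ModularGroup.S) ∣[k] heckeDiagMatrix p := by
  obtain ⟨g, hg, rfl⟩ := hγ
  have hp0 : p ≠ 0 := hp.ne_zero
  have hc : (p : ℤ) ∣ g 1 0 := by
    have hg' : ((g 1 0 : ℤ) : ZMod p) = 0 := Gamma0_mem.mp hg
    exact (ZMod.intCast_zmod_eq_zero_iff_dvd _ _).mp hg'
  obtain ⟨c', hc'⟩ := hc
  have hF : (⇑F) ∣[k] (Matrix.SpecialLinearGroup.mapGL ℝ (B1.FrickeInvAlt.aux_conj p g c' hc')) =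
      ⇑F :=
    SlashInvariantFormClass.slash_action_eq F _
      ⟨B1.FrickeInvAlt.aux_conj p g c' hc', B1.FrickeInvAlt.aux_conj_mem p g c' hc', rfl⟩
  have h1 : ((⇑F) ∣[k] ModularGroup.S) ∣[k] heckeDiagMatrix p =
      (⇑F) ∣[k] ((Matrix.SpecialLinearGroup.mapGL ℝ ModularGroup.S) * heckeDiagMatrix p) := by
    rw [SlashAction.slash_mul]
    rfl
  rw [h1, ← SlashAction.slash_mul, B1.FrickeInvAlt.aux_comm hp0 g c' hc', SlashAction.slash_mul,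
    hF]

end Fermat.Agent.S16
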